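import Mathlib

set_option autoImplicit false

open Matrix Matrix.SpecialLinearGroup

namespace Fermat.Agent.S22

theorem sl2z_fg : Group.FG (Matrix.SpecialLinearGroup (Fin 2) ℤ) := by
  rw [Group.fg_iff]
  exact ⟨{ModularGroup.S, ModularGroup.T}, SpecialLinearGroup.SL2Z_generators, by simp⟩

theorem gamma0_fg (N : ℕ) [NeZero N] : (CongruenceSubgroup.Gamma0 N).FG := by
  have := sl2z_fg
  exact (Group.fg_iff_subgroup_fg _).mp (Subgroup.fg_of_index_ne_zero (CongruenceSubgroup.Gamma0 N))

end Fermat.Agent.S22
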