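import Mathlib

set_option autoImplicit false

namespace Fermat.Agent.S22

/-- Abstract finiteness criterion: a `ℤ`-subalgebra of `End_ℂ V` generated by operators whose
transposes preserve a finitely generated subgroup `Λ` of the dual space that separates points
is a finite `ℤ`-module. -/
theorem finite_adjoin_of_lattice {V : Type*} [AddCommGroup V] [Module ℂ V]
    (G : Set (Module.End ℂ V)) (Λ : Submodule ℤ (Module.Dual ℂ V)) (hfg : Λ.FG)
    (hstab : ∀ T ∈ G, ∀ l ∈ Λ, l ∘ₗ T ∈ Λ)
    (hsep : ∀ f : V, (∀ l ∈ Λ, l f = 0) → f = 0) :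
    Module.Finite ℤ (Algebra.adjoin ℤ G) := by
  have hstab' : ∀ t ∈ Algebra.adjoin ℤ G, ∀ l ∈ Λ, l ∘ₗ t ∈ Λ := by
    intro t ht
    induction ht using Algebra.adjoin_induction with
    | mem x hx => exact hstab x hx
    | algebraMap n =>
      intro l hl
      have : l ∘ₗ (algebraMap ℤ (Module.End ℂ V) n) = n • l := by
        ext v
        simp [Algebra.algebraMap_eq_smul_one]
      rw [this]
      exact Λ.smul_mem n hl
    | add x y _ _ hx hy =>
      intro l hl
      rw [LinearMap.comp_add]
      exact Λ.add_mem (hx l hl) (hy l hl)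
    | mul x y _ _ hx hy =>
      intro l hl
      have : l ∘ₗ (x * y) = (l ∘ₗ x) ∘ₗ y := by
        ext v; simp
      rw [this]
      exact hy _ (hx l hl)
  haveI : Module.Finite ℤ Λ := Module.Finite.iff_fg.mpr hfg
  haveI : Module.Free ℤ Λ := Module.free_of_finite_type_torsion_free'
  let Φ : Algebra.adjoin ℤ G →ₗ[ℤ] (Λ →ₗ[ℤ] Λ) :=
    { toFun := fun t =>
        { toFun := fun l => ⟨(l : Module.Dual ℂ V) ∘ₗ (t : Module.End ℂ V), hstab' t t.2 l l.2⟩
          map_add' := fun a b => by
            ext v; simp
          map_smul' := fun n a => by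
            ext v; simp }
      map_add' := fun a b => by
        ext l v; simp
      map_smul' := fun n a => by
        ext l v; simp }
  have hinj : Function.Injective Φ := by
    intro a b hab
    apply Subtype.ext
    ext v
    rw [← sub_eq_zero]
    apply hsep
    intro l hl
    have := congrArg (fun F => ((F ⟨l, hl⟩ : Λ) : Module.Dual ℂ V) v) hab
    simp only [Φ, LinearMap.coe_mk, AddHom.coe_mk, LinearMap.comp_apply] at this
    rw [map_sub, this, sub_self]
  exact Module.Finite.of_injective Φ hinj

end Fermat.Agent.S22
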