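import Mathlib

set_option autoImplicit false

open UpperHalfPlane hiding I
open Complex Filter Topology Function
open scoped MatrixGroups ModularForm Manifold Real

namespace Fermat.Agent.S22

/-- `G` is a holomorphic primitive of `g` on the upper half plane. -/
def IsPrim (G g : ℍ → ℂ) : Prop :=
  ∀ z : ℍ, HasDerivAt (fun w : ℂ => G (ofComplex w)) (g z) (z : ℂ)

theorem IsPrim.mdiff {G g : ℍ → ℂ} (h : IsPrim G g) : MDiff G := by
  intro z
  rw [UpperHalfPlane.mdifferentiableAt_iff]
  exact (h z).differentiableAt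

/-- A function on `ℍ` with zero derivative is constant. -/
theorem IsPrim.const_of_zero {G : ℍ → ℂ} (h : IsPrim G 0) (z w : ℍ) : G z = G w := by
  have hopen : IsOpen {z : ℂ | 0 < z.im} := isOpen_upperHalfPlaneSet
  have hconn : IsPreconnected {z : ℂ | 0 < z.im} :=
    (convex_halfSpace_im_gt 0).isPreconnected
  have hd : DifferentiableOn ℂ (fun w : ℂ => G (ofComplex w)) {z : ℂ | 0 < z.im} := by
    intro x hx
    exact (h ⟨x, hx⟩).differentiableAt.differentiableWithinAt
  have hd' : Set.EqOn (deriv (fun w : ℂ => G (ofComplex w))) 0 {z : ℂ | 0 < z.im} := by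
    intro x hx
    exact (h ⟨x, hx⟩).deriv
  have := hopen.is_const_of_deriv_eq_zero hconn hd hd' z.2 w.2
  simpa using this

theorem IsPrim.add {G g G' g' : ℍ → ℂ} (h : IsPrim G g) (h' : IsPrim G' g') :
    IsPrim (G + G') (g + g') := fun z => (h z).add (h' z)

theorem IsPrim.sub {G g G' g' : ℍ → ℂ} (h : IsPrim G g) (h' : IsPrim G' g') :
    IsPrim (G - G') (g - g') := fun z => (h z).sub (h' z)

theorem IsPrim.smul {G g : ℍ → ℂ} (c : ℂ) (h : IsPrim G g) :
    IsPrim (c • G) (c • g) := fun z => (h z).const_smul c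

/-- Two primitives of the same function which both vanish at `i∞` agree. -/
theorem IsPrim.unique {G G' g : ℍ → ℂ} (h : IsPrim G g) (h' : IsPrim G' g)
    (hz : IsZeroAtImInfty G) (hz' : IsZeroAtImInfty G') : G = G' := by
  have h0 : IsPrim (G - G') 0 := by simpa using h.sub h'
  have hc : ∀ z, (G - G') z = (G - G') UpperHalfPlane.I :=
    fun z => h0.const_of_zero z UpperHalfPlane.I
  have ht : Tendsto (G - G') atImInfty (𝓝 0) := by
    have := Tendsto.sub hz hz'
    rw [sub_zero] at this
    exact this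
  have ht' : Tendsto (G - G') atImInfty (𝓝 ((G - G') UpperHalfPlane.I)) := by
    rw [show (G - G') = fun _ => (G - G') UpperHalfPlane.I from funext hc]
    exact tendsto_const_nhds
  have := tendsto_nhds_unique ht ht'
  funext z
  have h2 := hc z
  rw [← this] at h2
  simpa [sub_eq_zero] using h2

/-- Chain rule for the Möbius action. -/
theorem IsPrim.comp_smul {G g : ℍ → ℂ} (h : IsPrim G g) {α : GL (Fin 2) ℝ}
    (hα : 0 < α.val.det) (z : ℍ) :
    HasDerivAt (fun w : ℂ => G (α • ofComplex w))
      (g (α • z) * ((α.val.det : ℂ) / denom α z ^ 2)) (z : ℂ) := by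
  have h1 := (UpperHalfPlane.hasStrictDerivAt_smul hα z).hasDerivAt
  have h2 : HasDerivAt (fun w : ℂ => G (ofComplex w)) (g (α • z))
      ((fun w : ℂ => ((α • ofComplex w : ℍ) : ℂ)) (z : ℂ)) := by
    simpa using h (α • z)
  have := HasDerivAt.comp (z : ℂ) h2 h1
  simpa [Function.comp_def] using this

/-- Existence of a periodic primitive vanishing at `i∞` for a periodic holomorphic function
vanishing at `i∞`. -/
theorem exists_prim {h : ℝ} (hh : 0 < h) {g : ℍ → ℂ} (hol : MDiff g)
    (per : ∀ z : ℍ, g (h +ᵥ z) = g z) (zero : IsZeroAtImInfty g) :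
    ∃ G : ℍ → ℂ, IsPrim G g ∧ (∀ z : ℍ, G (h +ᵥ z) = G z) ∧ IsZeroAtImInfty G := by
  set f : ℂ → ℂ := g ∘ ofComplex with hf
  have hper : Function.Periodic f h := by
    intro w
    by_cases hw : 0 < w.im
    · have hw2 : 0 < (w + h).im := by simpa using hw
      simp only [hf, comp_apply, ofComplex_apply_of_im_pos hw, ofComplex_apply_of_im_pos hw2]
      have := per ⟨w, hw⟩
      convert this using 2
      ext
      simp [add_comm]
    · have hw' : w.im ≤ 0 := not_lt.mp hw
      have hw2 : (w + h).im ≤ 0 := by simpa using hw'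
      simp [hf, ofComplex_apply_of_im_nonpos hw', ofComplex_apply_of_im_nonpos hw2]
  have hdiff : ∀ w : ℂ, 0 < w.im → DifferentiableAt ℂ f w := by
    intro w hw
    have := UpperHalfPlane.mdifferentiableAt_iff.mp (hol ⟨w, hw⟩)
    simpa using this
  have hzero : ZeroAtFilter (comap Complex.im atTop) f := zero.comp tendsto_comap_im_ofComplex
  have hev : ∀ᶠ z in comap Complex.im atTop, DifferentiableAt ℂ f z := by
    filter_upwards [preimage_mem_comap (Ioi_mem_atTop 0)] with z hz using hdiff z hz
  set φ := Periodic.cuspFunction h f with hφ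
  have hφ0 : φ 0 = 0 := Periodic.cuspFunction_zero_of_zero_at_inf hh hzero
  have hφd : DifferentiableOn ℂ φ (Metric.ball 0 1) := by
    intro q hq
    apply DifferentiableAt.differentiableWithinAt
    by_cases hq0 : q = 0
    · subst hq0
      exact Periodic.differentiableAt_cuspFunction_zero hh hper hev hzero.boundedAtFilter
    · rw [← Periodic.qParam_right_inv hh.ne' hq0]
      apply Periodic.differentiableAt_cuspFunction hh.ne' hper
      apply hdiff
      rw [Periodic.im_invQParam]
      have h1 : ‖q‖ < 1 := by simpa using hq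
      have h2 : 0 < ‖q‖ := norm_pos_iff.mpr hq0
      have h3 : Real.log ‖q‖ < 0 := Real.log_neg h2 h1
      have h4 : -h / (2 * π) < 0 := by
        apply div_neg_of_neg_of_pos (by linarith) (by positivity)
      exact mul_pos_of_neg_of_neg h4 h3
  have hψd : DifferentiableOn ℂ (dslope φ 0) (Metric.ball 0 1) :=
    (Complex.differentiableOn_dslope (Metric.ball_mem_nhds 0 one_pos)).mpr hφd
  obtain ⟨Ψ, hΨ0, hΨ⟩ := (hψd.isExactOn_ball).with_val_at 0 0
  have hq1 : ∀ z : ℍ, Periodic.qParam h (z : ℂ) ∈ Metric.ball (0 : ℂ) 1 := by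
    intro z
    simpa using Periodic.norm_qParam_lt_one hh z.im_pos
  refine ⟨fun z => (h / (2 * π * I)) * Ψ (Periodic.qParam h z), ?_, ?_, ?_⟩
  · intro z
    have hqd : HasDerivAt (Periodic.qParam h) (Periodic.qParam h z * (2 * π * I / h)) (z : ℂ) := by
      have := ((hasDerivAt_id (z : ℂ)).const_mul (2 * π * I)).div_const (h : ℂ) |>.cexp
      have h' : Periodic.qParam h = fun x : ℂ => cexp (2 * π * I * x / h) := by
        funext x; rfl
      rw [h']
      simpa using this
    have h1 := (hΨ _ (hq1 z)).comp (z : ℂ) hqd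
    have h2 := h1.const_mul ((h : ℂ) / (2 * π * I))
    have hval : (h : ℂ) / (2 * π * I) *
        (dslope φ 0 (Periodic.qParam h z) * (Periodic.qParam h z * (2 * π * I / h))) = g z := by
      have e1 : Periodic.qParam h z * dslope φ 0 (Periodic.qParam h z) = φ (Periodic.qParam h z) := by
        have := sub_smul_dslope φ 0 (Periodic.qParam h z)
        simpa [hφ0] using this
      have e2 : φ (Periodic.qParam h z) = g z := by
        rw [hφ, Periodic.eq_cuspFunction hh.ne' hper]
        simp [hf]
      have hh' : (h : ℂ) ≠ 0 := by exact_mod_cast hh.ne'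
      have hpi : (2 * π * I : ℂ) ≠ 0 := two_pi_I_ne_zero
      rw [← e2, ← e1]
      field_simp
    rw [hval] at h2
    refine h2.congr_of_eventuallyEq ?_
    filter_upwards [isOpen_upperHalfPlaneSet.mem_nhds z.im_pos] with w hw
    simp [ofComplex_apply_of_im_pos hw]
  · intro z
    have : Periodic.qParam h ((h +ᵥ z : ℍ) : ℂ) = Periodic.qParam h (z : ℂ) := by
      simp only [Periodic.qParam, coe_vadd]
      have hh' : (h : ℂ) ≠ 0 := by exact_mod_cast hh.ne'
      rw [show 2 * (π : ℂ) * I * ((h : ℂ) + z) / h = 2 * π * I * z / h + 2 * π * I by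
        field_simp; ring]
      rw [Complex.exp_add, Complex.exp_two_pi_mul_I, mul_one]
    simp only [this]
  · have hc : ContinuousAt Ψ 0 := (hΨ 0 (by simp)).continuousAt
    have h1 : Tendsto (fun z : ℍ => Periodic.qParam h (z : ℂ)) atImInfty (𝓝 0) :=
      ((Periodic.qParam_tendsto hh).mono_right nhdsWithin_le_nhds).comp tendsto_coe_atImInfty
    have h2 : Tendsto (fun z : ℍ => Ψ (Periodic.qParam h (z : ℂ))) atImInfty (𝓝 0) := by
      have := hc.tendsto.comp h1
      rwa [hΨ0] at this
    have h3 := h2.const_mul ((h : ℂ) / (2 * π * I))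
    rw [mul_zero] at h3
    exact h3

end Fermat.Agent.S22
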