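import Mathlib
import Fermat.Agent.S22.Prim

set_option autoImplicit false

open UpperHalfPlane hiding I
open Complex Filter Topology Function
open scoped MatrixGroups ModularForm Manifold Real

namespace Fermat.Agent.S22

/-- A tower of iterated primitives of `g`, all vanishing at `i∞`. -/
structure IsTower (t : ℕ → ℍ → ℂ) (g : ℍ → ℂ) : Prop where
  zero : t 0 = g
  prim : ∀ i, IsPrim (t (i + 1)) (t i)
  van : ∀ i, IsZeroAtImInfty (t (i + 1))

theorem IsTower.unique {t t' : ℕ → ℍ → ℂ} {g : ℍ → ℂ} (h : IsTower t g) (h' : IsTower t' g) :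
    t = t' := by
  funext i
  induction i with
  | zero => rw [h.zero, h'.zero]
  | succ n ih =>
    have h1 := h.prim n
    have h2 := h'.prim n
    rw [← ih] at h2
    exact h1.unique h2 (h.van n) (h'.van n)

theorem exists_tower {h : ℝ} (hh : 0 < h) {g : ℍ → ℂ} (hol : MDiff g)
    (per : ∀ z : ℍ, g (h +ᵥ z) = g z) (zero : IsZeroAtImInfty g) :
    ∃ t, IsTower t g := by
  let P : (ℍ → ℂ) → Prop := fun g => MDiff g ∧ (∀ z : ℍ, g (h +ᵥ z) = g z) ∧ IsZeroAtImInfty g
  have step : ∀ g : {g // P g}, ∃ G : {g // P g}, IsPrim G.1 g.1 := by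
    rintro ⟨g, h1, h2, h3⟩
    obtain ⟨G, hG1, hG2, hG3⟩ := exists_prim hh h1 h2 h3
    exact ⟨⟨G, hG1.mdiff, hG2, hG3⟩, hG1⟩
  choose nxt hnxt using step
  let s : ℕ → {g // P g} := fun n => Nat.rec ⟨g, hol, per, zero⟩ (fun _ x => nxt x) n
  refine ⟨fun n => (s n).1, rfl, fun i => hnxt (s i), fun i => (s (i + 1)).2.2.2⟩

theorem IsTower.add {t t' : ℕ → ℍ → ℂ} {g g' : ℍ → ℂ} (h : IsTower t g) (h' : IsTower t' g') :
    IsTower (t + t') (g + g') where
  zero := by simp [h.zero, h'.zero]
  prim i := (h.prim i).add (h'.prim i)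
  van i := by
    have := Tendsto.add (h.van i) (h'.van i)
    rw [add_zero] at this
    exact this

theorem IsTower.smul {t : ℕ → ℍ → ℂ} {g : ℍ → ℂ} (c : ℂ) (h : IsTower t g) :
    IsTower (c • t) (c • g) where
  zero := by simp [h.zero]
  prim i := (h.prim i).smul c
  van i := by
    have := Tendsto.const_mul c (h.van i)
    rw [mul_zero] at this
    exact this

theorem isTower_zero : IsTower 0 0 where
  zero := rfl
  prim _ := fun z => by simpa using hasDerivAt_const (z : ℂ) (0 : ℂ)
  van _ := tendsto_const_nhds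

theorem IsTower.sum {ι : Type*} (s : Finset ι) {t : ι → ℕ → ℍ → ℂ} {g : ι → ℍ → ℂ}
    (h : ∀ j ∈ s, IsTower (t j) (g j)) : IsTower (∑ j ∈ s, t j) (∑ j ∈ s, g j) := by
  classical
  induction s using Finset.induction_on with
  | empty => simpa using isTower_zero
  | insert a s ha ih =>
    rw [Finset.sum_insert ha, Finset.sum_insert ha]
    exact (h a (Finset.mem_insert_self a s)).add
      (ih fun j hj => h j (Finset.mem_insert_of_mem hj))

/-- Pull back a tower along an upper triangular matrix. -/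
theorem IsTower.comp_smul {t : ℕ → ℍ → ℂ} {g : ℍ → ℂ} (h : IsTower t g) {α : GL (Fin 2) ℝ}
    (hα : 0 < α.val.det) (h10 : α 1 0 = 0) (c : ℂ) :
    IsTower (fun i z => c * ((α 1 1 : ℂ) / (α 0 0 : ℂ)) ^ i * t i (α • z))
      (fun z => c * g (α • z)) where
  zero := by
    funext z
    simp [h.zero]
  prim i := by
    intro z
    have h1 := ((h.prim i).comp_smul hα z).const_mul (c * ((α 1 1 : ℂ) / (α 0 0 : ℂ)) ^ (i + 1))
    refine h1.congr_deriv ?_
    have hdet : α.val.det = α 0 0 * α 1 1 := by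
      rw [Matrix.det_fin_two]
      simp [h10]
    have hne : α 0 0 * α 1 1 ≠ 0 := by rw [← hdet]; exact hα.ne'
    have ha : (α 0 0 : ℂ) ≠ 0 := by exact_mod_cast left_ne_zero_of_mul hne
    have hd : (α 1 1 : ℂ) ≠ 0 := by exact_mod_cast right_ne_zero_of_mul hne
    have hden : denom α z = (α 1 1 : ℂ) := by simp [denom, h10]
    rw [hden, hdet, pow_succ]
    push_cast
    field_simp
  van i := by
    have h1 : Tendsto (fun z : ℍ => t (i + 1) (α • z)) atImInfty (𝓝 0) :=
      (h.van i).comp (tendsto_smul_atImInfty h10)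
    have := h1.const_mul (c * ((α 1 1 : ℂ) / (α 0 0 : ℂ)) ^ (i + 1))
    rw [mul_zero] at this
    exact this

/-- The canonical tower of a function (junk value `0` if there is none). -/
noncomputable def tower (g : ℍ → ℂ) : ℕ → ℍ → ℂ :=
  open Classical in if h : ∃ t, IsTower t g then h.choose else 0

theorem IsTower.tower_eq {t : ℕ → ℍ → ℂ} {g : ℍ → ℂ} (h : IsTower t g) : tower g = t := by
  have hex : ∃ t, IsTower t g := ⟨t, h⟩
  rw [tower, dif_pos hex]
  exact hex.choose_spec.unique h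

theorem IsTower.isTower_tower {t : ℕ → ℍ → ℂ} {g : ℍ → ℂ} (h : IsTower t g) :
    IsTower (tower g) g := by
  rw [h.tower_eq]; exact h

end Fermat.Agent.S22
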