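import Mathlib
import Fermat.Agent.S22.Tower

set_option autoImplicit false

open UpperHalfPlane hiding I
open Complex Filter Topology Function
open scoped MatrixGroups ModularForm Manifold Real

namespace Fermat.Agent.S22

/-- The action of real matrices on `ℂ × ℂ`. -/
def vact (α : GL (Fin 2) ℝ) (v : ℂ × ℂ) : ℂ × ℂ :=
  ((α 0 0 : ℂ) * v.1 + (α 0 1 : ℂ) * v.2, (α 1 0 : ℂ) * v.1 + (α 1 1 : ℂ) * v.2)

theorem vact_mul (α β : GL (Fin 2) ℝ) (v : ℂ × ℂ) : vact (α * β) v = vact α (vact β v) := by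
  ext <;> simp [vact, Matrix.mul_apply, Fin.sum_univ_two] <;> ring

@[simp] theorem vact_one (v : ℂ × ℂ) : vact 1 v = v := by
  ext <;> simp [vact]

/-- The Eichler integral `∫_{i∞}^z f(w) (x - w y)^m dw`, written in terms of a tower of
primitives `t` of `f`. -/
noncomputable def E (m : ℕ) (t : ℕ → ℍ → ℂ) (z : ℍ) (v : ℂ × ℂ) : ℂ :=
  ∑ i ∈ Finset.range (m + 1),
    (m.descFactorial i : ℂ) * v.2 ^ i * (v.1 - z * v.2) ^ (m - i) * t (i + 1) z

theorem E_isPrim (m : ℕ) {t : ℕ → ℍ → ℂ} (ht : ∀ i, IsPrim (t (i + 1)) (t i)) (v : ℂ × ℂ) :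
    IsPrim (fun z => E m t z v) (fun z => t 0 z * (v.1 - z * v.2) ^ m) := by
  intro z
  obtain ⟨x, y⟩ := v
  simp only
  -- the telescoping terms
  let A : ℕ → ℂ := fun i => (m.descFactorial i : ℂ) * y ^ i * (x - z * y) ^ (m - i) * t i z
  have hterm : ∀ i, HasDerivAt
      (fun w : ℂ => (m.descFactorial i : ℂ) * y ^ i * (x - w * y) ^ (m - i) * t (i + 1) (ofComplex w))
      (A i - A (i + 1)) (z : ℂ) := by
    intro i
    have h1 : HasDerivAt (fun w : ℂ => x - w * y) (-y) (z : ℂ) := by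
      simpa using ((hasDerivAt_id (z : ℂ)).mul_const y).const_sub x
    have h2 := h1.pow (m - i)
    have h3 := (h2.const_mul ((m.descFactorial i : ℂ) * y ^ i)).mul (ht i z)
    refine h3.congr_deriv ?_
    simp only [A, ofComplex_apply, Nat.descFactorial_succ, Pi.pow_apply]
    have : m - (i + 1) = m - i - 1 := by omega
    rw [this]
    push_cast
    ring
  have hsum := HasDerivAt.fun_sum (u := Finset.range (m + 1)) (fun i _ => hterm i)
  rw [Finset.sum_range_sub'] at hsum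
  have hA0 : A 0 = t 0 z * (x - z * y) ^ m := by simp [A]; ring
  have hAm : A (m + 1) = 0 := by
    simp [A]
  rw [hA0, hAm, sub_zero] at hsum
  refine hsum.congr_of_eventuallyEq ?_
  filter_upwards [isOpen_upperHalfPlaneSet.mem_nhds z.im_pos] with w hw
  simp [E, ofComplex_apply_of_im_pos hw]

theorem slash_apply_of_det_pos (m : ℕ) (f : ℍ → ℂ) {α : GL (Fin 2) ℝ} (hα : 0 < α.val.det)
    (z : ℍ) :
    (f ∣[(m : ℤ) + 2] α) z = f (α • z) * (α.val.det : ℂ) ^ (m + 1) / denom α z ^ (m + 2) := by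
  rw [ModularForm.slash_apply]
  have hσ : σ α = .refl ℝ ℂ := by
    rw [σ, if_pos (by simpa using hα)]
  rw [hσ]
  have h1 : ((m : ℤ) + 2 - 1) = ((m + 1 : ℕ) : ℤ) := by push_cast; ring
  have h2 : -((m : ℤ) + 2) = -((m + 2 : ℕ) : ℤ) := by push_cast; ring
  rw [h1, h2, zpow_natCast, zpow_neg, zpow_natCast]
  have h3 : |α.det.val| = α.val.det := by
    rw [Matrix.GeneralLinearGroup.val_det_apply]
    exact abs_of_pos hα
  rw [h3]
  simp [div_eq_mul_inv]

theorem vact_sub_smul {α : GL (Fin 2) ℝ} (hα : 0 < α.val.det) (v : ℂ × ℂ) (z : ℍ) :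
    (vact α v).1 - ((α • z : ℍ) : ℂ) * (vact α v).2
      = (α.val.det : ℂ) * (v.1 - z * v.2) / denom α z := by
  have hD : denom α z ≠ 0 := denom_ne_zero α z
  rw [UpperHalfPlane.coe_smul_of_det_pos (by simpa using hα)]
  rw [eq_div_iff hD, sub_mul, div_mul_eq_mul_div, div_mul_cancel₀ _ hD]
  simp only [vact, num, denom, Matrix.det_fin_two]
  push_cast
  ring

/-- The fundamental equivariance property of the Eichler integral. -/
theorem E_equivariant (m : ℕ) {t t' : ℕ → ℍ → ℂ} (ht : ∀ i, IsPrim (t (i + 1)) (t i))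
    (ht' : ∀ i, IsPrim (t' (i + 1)) (t' i)) {α : GL (Fin 2) ℝ} (hα : 0 < α.val.det)
    (hslash : t' 0 = t 0 ∣[(m : ℤ) + 2] α) (v : ℂ × ℂ) (z w : ℍ) :
    E m t (α • z) (vact α v) - E m t' z v = E m t (α • w) (vact α v) - E m t' w v := by
  have h0 : IsPrim (fun z => E m t (α • z) (vact α v) - E m t' z v) 0 := by
    intro z
    have h1 := (E_isPrim m ht (vact α v)).comp_smul hα z
    have h2 := E_isPrim m ht' v z
    refine (h1.sub h2).congr_deriv ?_
    have hD : denom α z ≠ 0 := denom_ne_zero α z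
    simp only [Pi.zero_apply]
    rw [hslash, slash_apply_of_det_pos m _ hα, vact_sub_smul hα, div_pow, mul_pow]
    field_simp
    ring
  exact h0.const_of_zero z w

theorem E_add (m : ℕ) (t t' : ℕ → ℍ → ℂ) (z : ℍ) (v : ℂ × ℂ) :
    E m (t + t') z v = E m t z v + E m t' z v := by
  simp only [E, Pi.add_apply, mul_add, Finset.sum_add_distrib]

theorem E_zero (m : ℕ) (z : ℍ) (v : ℂ × ℂ) : E m 0 z v = 0 := by
  simp [E]

theorem E_sum {ι : Type*} (s : Finset ι) (m : ℕ) (t : ι → ℕ → ℍ → ℂ) (z : ℍ) (v : ℂ × ℂ) :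
    E m (∑ j ∈ s, t j) z v = ∑ j ∈ s, E m (t j) z v := by
  classical
  induction s using Finset.induction_on with
  | empty => simp [E_zero]
  | insert a s ha ih => rw [Finset.sum_insert ha, Finset.sum_insert ha, E_add, ih]

/-- Exact equivariance for upper triangular matrices. -/
theorem E_comp_UT (m : ℕ) (t : ℕ → ℍ → ℂ) {α : GL (Fin 2) ℝ} (hα : 0 < α.val.det)
    (h10 : α 1 0 = 0) (z : ℍ) (v : ℂ × ℂ) :
    E m (fun i z => ((α.val.det : ℂ) ^ (m + 1) / (α 1 1 : ℂ) ^ (m + 2)) *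
        ((α 1 1 : ℂ) / (α 0 0 : ℂ)) ^ i * t i (α • z)) z v
      = E m t (α • z) (vact α v) := by
  have hdet : α.val.det = α 0 0 * α 1 1 := by
    rw [Matrix.det_fin_two]
    simp [h10]
  have hne : α 0 0 * α 1 1 ≠ 0 := by rw [← hdet]; exact hα.ne'
  have ha : (α 0 0 : ℂ) ≠ 0 := by exact_mod_cast left_ne_zero_of_mul hne
  have hd : (α 1 1 : ℂ) ≠ 0 := by exact_mod_cast right_ne_zero_of_mul hne
  have hden : denom α z = (α 1 1 : ℂ) := by simp [denom, h10]
  unfold E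
  refine Finset.sum_congr rfl fun i hi => ?_
  have hi' : i ≤ m := Nat.lt_succ_iff.mp (Finset.mem_range.mp hi)
  rw [vact_sub_smul hα, hden, hdet]
  have h2 : (vact α v).2 = (α 1 1 : ℂ) * v.2 := by simp [vact, h10]
  rw [h2]
  obtain ⟨j, rfl⟩ := Nat.exists_eq_add_of_le hi'
  have e1 : i + j - i = j := by omega
  rw [e1]
  push_cast
  have e2 : (α 0 0 : ℂ) * (α 1 1 : ℂ) * (v.1 - z * v.2) / (α 1 1 : ℂ)
      = (α 0 0 : ℂ) * (v.1 - z * v.2) := by field_simp
  rw [e2]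
  have key : ∀ (a d : ℂ), a ≠ 0 → d ≠ 0 →
      (a * d) ^ (i + j + 1) / d ^ (i + j + 2) * (d / a) ^ (i + 1) = d ^ i * a ^ j := by
    intro a d ha hd
    rw [div_pow, mul_pow]
    field_simp
    ring
  rw [key _ _ ha hd, mul_pow, mul_pow]
  ring

theorem E_diag (m : ℕ) (t : ℕ → ℍ → ℂ) (z : ℍ) :
    E m t z ((z : ℂ), 1) = (m.factorial : ℂ) * t (m + 1) z := by
  unfold E
  rw [Finset.sum_eq_single m]
  · simp [Nat.descFactorial_self]
  · intro i hi him
    have hi' : i < m := lt_of_le_of_ne (Nat.lt_succ_iff.mp (Finset.mem_range.mp hi)) him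
    have : m - i ≠ 0 := by omega
    simp [this]
  · intro h
    simp at h

theorem E_smul_vec (m : ℕ) (t : ℕ → ℍ → ℂ) (z : ℍ) (c : ℂ) (v : ℂ × ℂ) :
    E m t z (c * v.1, c * v.2) = c ^ m * E m t z v := by
  unfold E
  rw [Finset.mul_sum]
  refine Finset.sum_congr rfl fun i hi => ?_
  have hi' : i ≤ m := Nat.lt_succ_iff.mp (Finset.mem_range.mp hi)
  obtain ⟨j, rfl⟩ := Nat.exists_eq_add_of_le hi'
  have e1 : i + j - i = j := by omega
  rw [e1]
  simp only
  rw [show c * v.1 - z * (c * v.2) = c * (v.1 - z * v.2) by ring, mul_pow, mul_pow, pow_add]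
  ring

open Polynomial in
/-- Polynomial version of `E`. -/
noncomputable def EP (m : ℕ) (t : ℕ → ℍ → ℂ) (z : ℍ) (p q : Polynomial ℂ) : Polynomial ℂ :=
  ∑ i ∈ Finset.range (m + 1),
    C ((m.descFactorial i : ℂ) * t (i + 1) z) * q ^ i * (p - C (z : ℂ) * q) ^ (m - i)

theorem EP_eval (m : ℕ) (t : ℕ → ℍ → ℂ) (z : ℍ) (p q : Polynomial ℂ) (x : ℂ) :
    (EP m t z p q).eval x = E m t z (p.eval x, q.eval x) := by
  simp only [EP, E, Polynomial.eval_finsetSum, Polynomial.eval_mul, Polynomial.eval_pow,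
    Polynomial.eval_sub, Polynomial.eval_C]
  refine Finset.sum_congr rfl fun i _ => ?_
  ring

end Fermat.Agent.S22
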