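import Mathlib
import Fermat.Prelude.Def_CuspForm_HeckeAlgebra
import Fermat.Prelude.Thm_Subgroup_IsArithmetic_exists_nat_mem_strictPeriods_conj
import Fermat.Agent.S22.Eichler

set_option autoImplicit false

open UpperHalfPlane hiding I
open Complex Filter Topology Function Matrix.SpecialLinearGroup
open scoped MatrixGroups ModularForm Manifold Real

namespace Fermat.Agent.S22

variable {N : ℕ} [NeZero N]

/-- Every `SL(2,ℤ)`-translate of a cusp form on `Γ₀(N)` has a tower of primitives. -/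
theorem exists_tower_slash {k : ℤ} (f : CuspForm (CongruenceSubgroup.Gamma0 N) k)
    (γ : SL(2, ℤ)) : ∃ t, IsTower t (⇑f ∣[k] (mapGL ℝ γ)) := by
  obtain ⟨M, hM, hper⟩ := Subgroup.IsArithmetic.exists_nat_mem_strictPeriods_conj
    (CongruenceSubgroup.Gamma0 N : Subgroup (GL (Fin 2) ℝ))
  have h1 := hper γ⁻¹
  rw [map_inv] at h1
  have hM' : (0 : ℝ) < M := by exact_mod_cast hM
  refine exists_tower hM' ((CuspFormClass.holo f).slash k _) ?_ ?_
  · intro z
    exact SlashInvariantForm.vAdd_apply_of_mem_strictPeriods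
      (CuspForm.translate f (mapGL ℝ γ)) z h1
  · exact CuspFormClass.zero_at_infty_slash f γ

theorem exists_tower_cusp {k : ℤ} (f : CuspForm (CongruenceSubgroup.Gamma0 N) k) :
    ∃ t, IsTower t ⇑f := by
  simpa using exists_tower_slash f 1

theorem isTower_cusp {k : ℤ} (f : CuspForm (CongruenceSubgroup.Gamma0 N) k) :
    IsTower (tower ⇑f) ⇑f := by
  obtain ⟨t, ht⟩ := exists_tower_cusp f
  exact ht.isTower_tower

theorem isTower_slash {k : ℤ} (f : CuspForm (CongruenceSubgroup.Gamma0 N) k) (γ : SL(2, ℤ)) :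
    IsTower (tower (⇑f ∣[k] (mapGL ℝ γ))) (⇑f ∣[k] (mapGL ℝ γ)) := by
  obtain ⟨t, ht⟩ := exists_tower_slash f γ
  exact ht.isTower_tower

/-- The functional `f ↦ (i-th primitive of f)(z)`. -/
noncomputable def phi (N : ℕ) [NeZero N] (k : ℤ) (i : ℕ) (z : ℍ) :
    Module.Dual ℂ (CuspForm (CongruenceSubgroup.Gamma0 N) k) where
  toFun f := tower ⇑f i z
  map_add' f g := by
    rw [FunLike.coe_add, ((isTower_cusp f).add (isTower_cusp g)).tower_eq]
    rfl
  map_smul' c f := by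
    rw [FunLike.coe_smul, ((isTower_cusp f).smul c).tower_eq]
    rfl

@[simp] theorem phi_apply (k : ℤ) (i : ℕ) (z : ℍ) (f : CuspForm (CongruenceSubgroup.Gamma0 N) k) :
    phi N k i z f = tower ⇑f i z := rfl

/-- The functional-valued Eichler integral. -/
noncomputable def EE (N : ℕ) [NeZero N] (m : ℕ) (z : ℍ) (v : ℂ × ℂ) :
    Module.Dual ℂ (CuspForm (CongruenceSubgroup.Gamma0 N) ((m : ℤ) + 2)) :=
  ∑ i ∈ Finset.range (m + 1),
    ((m.descFactorial i : ℂ) * v.2 ^ i * (v.1 - z * v.2) ^ (m - i)) • phi N ((m : ℤ) + 2) (i + 1) z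

theorem EE_apply (m : ℕ) (z : ℍ) (v : ℂ × ℂ)
    (f : CuspForm (CongruenceSubgroup.Gamma0 N) ((m : ℤ) + 2)) :
    EE N m z v f = E m (tower ⇑f) z v := by
  simp [EE, E, LinearMap.sum_apply]

/-- The period functional attached to `γ` and a vector `v`. -/
noncomputable def Cc (N : ℕ) [NeZero N] (m : ℕ) (γ : SL(2, ℤ)) (v : ℂ × ℂ) :
    Module.Dual ℂ (CuspForm (CongruenceSubgroup.Gamma0 N) ((m : ℤ) + 2)) :=
  EE N m (mapGL ℝ γ • UpperHalfPlane.I) (vact (mapGL ℝ γ) v) - EE N m UpperHalfPlane.I v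

theorem det_mapGL_pos (γ : SL(2, ℤ)) : 0 < (mapGL ℝ γ : GL (Fin 2) ℝ).val.det := by
  have h := Matrix.SpecialLinearGroup.det_mapGL (S := ℝ) γ
  have h2 : ((mapGL ℝ γ : GL (Fin 2) ℝ).det : ℝ) = 1 := by rw [h]; rfl
  rw [Matrix.GeneralLinearGroup.val_det_apply] at h2
  rw [h2]
  exact one_pos

/-- The period functional does not depend on the base point. -/
theorem Cc_apply (m : ℕ) {γ : SL(2, ℤ)} (hγ : γ ∈ CongruenceSubgroup.Gamma0 N) (v : ℂ × ℂ)
    (f : CuspForm (CongruenceSubgroup.Gamma0 N) ((m : ℤ) + 2)) (z : ℍ) :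
    Cc N m γ v f = E m (tower ⇑f) (mapGL ℝ γ • z) (vact (mapGL ℝ γ) v) - E m (tower ⇑f) z v := by
  have ht := isTower_cusp f
  rw [Cc, LinearMap.sub_apply, EE_apply, EE_apply]
  refine E_equivariant m ht.prim ht.prim (det_mapGL_pos γ) ?_ v _ _
  rw [ht.zero]
  exact (SlashInvariantFormClass.slash_action_eq f _ (Subgroup.mem_map_of_mem (mapGL ℝ) hγ)).symm

/-- The lattice of period functionals. -/
noncomputable def Lam (N : ℕ) [NeZero N] (m : ℕ) :
    Submodule ℤ (Module.Dual ℂ (CuspForm (CongruenceSubgroup.Gamma0 N) ((m : ℤ) + 2))) :=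
  Submodule.span ℤ {l | ∃ γ ∈ CongruenceSubgroup.Gamma0 N, ∃ a b : ℤ, l = Cc N m γ ((a : ℂ), (b : ℂ))}

theorem Cc_mem_Lam (m : ℕ) {γ : SL(2, ℤ)} (hγ : γ ∈ CongruenceSubgroup.Gamma0 N) (a b : ℤ) :
    Cc N m γ ((a : ℂ), (b : ℂ)) ∈ Lam N m :=
  Submodule.subset_span ⟨γ, hγ, a, b, rfl⟩

end Fermat.Agent.S22
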