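import Mathlib
import Fermat.Agent.S22.Lattice
import Fermat.Agent.S22.Gamma0FG

set_option autoImplicit false

open UpperHalfPlane hiding I
open Complex Filter Topology Function Matrix.SpecialLinearGroup
open scoped MatrixGroups ModularForm Manifold Real

namespace Fermat.Agent.S22

variable {N : ℕ} [NeZero N]

theorem Cc_mul (m : ℕ) {γ γ' : SL(2, ℤ)} (hγ : γ ∈ CongruenceSubgroup.Gamma0 N)
    (hγ' : γ' ∈ CongruenceSubgroup.Gamma0 N) (v : ℂ × ℂ) :
    Cc N m (γ * γ') v = Cc N m γ (vact (mapGL ℝ γ') v) + Cc N m γ' v := by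
  ext f
  rw [LinearMap.add_apply, Cc_apply m (mul_mem hγ hγ') v f UpperHalfPlane.I,
    Cc_apply m hγ _ f (mapGL ℝ γ' • UpperHalfPlane.I), Cc_apply m hγ' v f UpperHalfPlane.I,
    map_mul, mul_smul, vact_mul]
  ring

theorem Cc_one (m : ℕ) (v : ℂ × ℂ) : Cc N m 1 v = 0 := by
  simp [Cc]

theorem Cc_inv (m : ℕ) {γ : SL(2, ℤ)} (hγ : γ ∈ CongruenceSubgroup.Gamma0 N) (v : ℂ × ℂ) :
    Cc N m γ⁻¹ v = - Cc N m γ (vact (mapGL ℝ γ⁻¹) v) := by
  have h := Cc_mul m hγ (inv_mem hγ) v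
  rw [mul_inv_cancel, Cc_one] at h
  exact eq_neg_of_add_eq_zero_right h.symm

theorem vact_mapGL_int (γ : SL(2, ℤ)) (a b : ℤ) :
    ∃ a' b' : ℤ, vact (mapGL ℝ γ) ((a : ℂ), (b : ℂ)) = ((a' : ℂ), (b' : ℂ)) :=
  ⟨γ 0 0 * a + γ 0 1 * b, γ 1 0 * a + γ 1 1 * b, by simp [vact]⟩

/-- The finite set of generators at the point `z`. -/
noncomputable def genSet (N : ℕ) [NeZero N] (m : ℕ) (z : ℍ) :
    Finset (Module.Dual ℂ (CuspForm (CongruenceSubgroup.Gamma0 N) ((m : ℤ) + 2))) :=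
  open Classical in
  (Finset.range (m + 1) ×ˢ Finset.range (m + 1)).image
    fun p => ((z : ℂ) ^ p.1) • phi N ((m : ℤ) + 2) (p.2 + 1) z

open Polynomial in
theorem EE_mem_span (m : ℕ) (z : ℍ) (a b : ℤ) :
    EE N m z ((a : ℂ), (b : ℂ)) ∈ Submodule.span ℤ (genSet N m z : Set _) := by
  unfold EE
  refine Submodule.sum_mem _ fun i hi => ?_
  set P : ℤ[X] := C ((m.descFactorial i : ℤ) * b ^ i) * (C a - X * C b) ^ (m - i) with hP
  have hdeg : P.natDegree < m + 1 := by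
    have h1 : (C a - X * C b : ℤ[X]).natDegree ≤ 1 := by
      refine (natDegree_sub_le _ _).trans ?_
      simp only [natDegree_C]
      exact max_le (by omega) (natDegree_mul_C_le _ _ |>.trans (by simp))
    have h2 : ((C a - X * C b : ℤ[X]) ^ (m - i)).natDegree ≤ m - i := by
      refine natDegree_pow_le.trans ?_
      calc (m - i) * (C a - X * C b : ℤ[X]).natDegree ≤ (m - i) * 1 := Nat.mul_le_mul_left _ h1
        _ = m - i := mul_one _
    have h3 : P.natDegree ≤ m - i := (natDegree_C_mul_le _ _).trans h2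
    omega
  have hval : ((m.descFactorial i : ℂ) * ((b : ℂ)) ^ i * ((a : ℂ) - z * (b : ℂ)) ^ (m - i))
      = aeval (z : ℂ) P := by
    simp [hP]
  simp only
  rw [hval, aeval_eq_sum_range' hdeg, Finset.sum_smul]
  refine Submodule.sum_mem _ fun l hl => ?_
  rw [smul_assoc]
  refine Submodule.smul_mem _ _ (Submodule.subset_span ?_)
  simp only [genSet, Finset.coe_image, Set.mem_image, Finset.mem_coe, Finset.mem_product]
  exact ⟨(l, i), ⟨hl, hi⟩, rfl⟩

theorem Lam_fg (N : ℕ) [NeZero N] (m : ℕ) : (Lam N m).FG := by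
  classical
  obtain ⟨S, hS⟩ := gamma0_fg N
  set B : Finset (Module.Dual ℂ (CuspForm (CongruenceSubgroup.Gamma0 N) ((m : ℤ) + 2))) :=
    genSet N m UpperHalfPlane.I ∪ S.biUnion fun s => genSet N m (mapGL ℝ s • UpperHalfPlane.I)
    with hB
  set M0 := Submodule.span ℤ (B : Set (Module.Dual ℂ
    (CuspForm (CongruenceSubgroup.Gamma0 N) ((m : ℤ) + 2)))) with hM0
  have hI : ∀ a b : ℤ, EE N m UpperHalfPlane.I ((a : ℂ), (b : ℂ)) ∈ M0 := fun a b =>
    Submodule.span_mono (by rw [hB]; push_cast; exact Set.subset_union_left) (EE_mem_span m _ a b)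
  have hs : ∀ s ∈ S, ∀ a b : ℤ, EE N m (mapGL ℝ s • UpperHalfPlane.I) ((a : ℂ), (b : ℂ)) ∈ M0 :=
    fun s hs a b => Submodule.span_mono (by
      intro x hx
      rw [hB]
      simp only [Finset.coe_union, Finset.coe_biUnion, Set.mem_union, Set.mem_iUnion]
      exact Or.inr ⟨s, hs, hx⟩) (EE_mem_span m _ a b)
  have key : ∀ γ ∈ Subgroup.closure (S : Set SL(2, ℤ)), ∀ a b : ℤ,
      Cc N m γ ((a : ℂ), (b : ℂ)) ∈ M0 := by
    intro γ hγ
    induction hγ using Subgroup.closure_induction with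
    | mem x hx =>
      intro a b
      obtain ⟨a', b', hab⟩ := vact_mapGL_int x a b
      rw [Cc, hab]
      exact M0.sub_mem (hs x hx a' b') (hI a b)
    | one =>
      intro a b
      rw [Cc_one]
      exact M0.zero_mem
    | mul x y hx hy ihx ihy =>
      intro a b
      obtain ⟨a', b', hab⟩ := vact_mapGL_int y a b
      rw [Cc_mul m (hS ▸ hx) (hS ▸ hy), hab]
      exact M0.add_mem (ihx a' b') (ihy a b)
    | inv x hx ihx =>
      intro a b
      obtain ⟨a', b', hab⟩ := vact_mapGL_int x⁻¹ a b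
      rw [Cc_inv m (hS ▸ hx), hab]
      exact M0.neg_mem (ihx a' b')
  have hle : Lam N m ≤ M0 := by
    rw [Lam, Submodule.span_le]
    rintro _ ⟨γ, hγ, a, b, rfl⟩
    exact key γ (hS ▸ hγ) a b
  have hM0fg : M0.FG := ⟨B, rfl⟩
  exact Submodule.FG.of_le hM0fg hle

end Fermat.Agent.S22
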