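import Mathlib
import Fermat.Prelude.Def_CuspForm_HeckeAlgebra
import Fermat.Agent.S22.Lattice

set_option autoImplicit false

open UpperHalfPlane hiding I
open Complex Filter Topology Function Matrix.SpecialLinearGroup
open scoped MatrixGroups ModularForm Manifold Real

namespace Fermat.Agent.S22

variable {N : ℕ} [NeZero N]

/-- Integral upper triangular matrices of positive determinant. -/
structure IsIntUT (α : GL (Fin 2) ℝ) : Prop where
  det_pos : 0 < α.val.det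
  h10 : α 1 0 = 0
  int : ∃ a b d : ℤ, α 0 0 = a ∧ α 0 1 = b ∧ α 1 1 = d

theorem isTower_slash_UT (m : ℕ) {t : ℕ → ℍ → ℂ} {g : ℍ → ℂ} (ht : IsTower t g)
    {α : GL (Fin 2) ℝ} (hα : 0 < α.val.det) (h10 : α 1 0 = 0) :
    IsTower (fun i z => ((α.val.det : ℂ) ^ (m + 1) / (α 1 1 : ℂ) ^ (m + 2)) *
        ((α 1 1 : ℂ) / (α 0 0 : ℂ)) ^ i * t i (α • z)) (g ∣[(m : ℤ) + 2] α) := by
  have h := ht.comp_smul hα h10 ((α.val.det : ℂ) ^ (m + 1) / (α 1 1 : ℂ) ^ (m + 2))
  convert h using 1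
  funext z
  rw [slash_apply_of_det_pos m g hα]
  have hden : denom α z = (α 1 1 : ℂ) := by simp [denom, h10]
  rw [hden]
  ring

theorem E_tower_slash_UT (m : ℕ) {t : ℕ → ℍ → ℂ} {g : ℍ → ℂ} (ht : IsTower t g)
    {α : GL (Fin 2) ℝ} (hα : 0 < α.val.det) (h10 : α 1 0 = 0) (z : ℍ) (v : ℂ × ℂ) :
    E m (tower (g ∣[(m : ℤ) + 2] α)) z v = E m t (α • z) (vact α v) := by
  rw [(isTower_slash_UT m ht hα h10).tower_eq, E_comp_UT m t hα h10]

theorem IsIntUT.vact_int {α : GL (Fin 2) ℝ} (h : IsIntUT α) (a b : ℤ) :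
    ∃ a' b' : ℤ, vact α ((a : ℂ), (b : ℂ)) = ((a' : ℂ), (b' : ℂ)) := by
  obtain ⟨p, q, r, h1, h2, h3⟩ := h.int
  refine ⟨p * a + q * b, r * b, ?_⟩
  simp [vact, h1, h2, h3, h.h10]

/-- Abstract Hecke stability of the period lattice. -/
theorem Lam_stable (m : ℕ)
    (T : Module.End ℂ (CuspForm (CongruenceSubgroup.Gamma0 N) ((m : ℤ) + 2)))
    {ι : Type*} [Fintype ι] (α : ι → GL (Fin 2) ℝ) (hUT : ∀ i, IsIntUT (α i))
    (hT : ∀ f, ⇑(T f) = ∑ i, ⇑f ∣[(m : ℤ) + 2] α i)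
    (hperm : ∀ γ ∈ CongruenceSubgroup.Gamma0 N, ∃ σ : Equiv.Perm ι,
      ∀ i, ∃ γ' ∈ CongruenceSubgroup.Gamma0 N, α i * mapGL ℝ γ = mapGL ℝ γ' * α (σ i)) :
    ∀ l ∈ Lam N m, l ∘ₗ T ∈ Lam N m := by
  intro l hl
  induction hl using Submodule.span_induction with
  | zero => simp
  | add x y _ _ hx hy =>
    rw [LinearMap.add_comp]
    exact (Lam N m).add_mem hx hy
  | smul n x _ hx =>
    rw [LinearMap.smul_comp]
    exact (Lam N m).smul_mem n hx
  | mem x hx =>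
    obtain ⟨γ, hγ, a, b, rfl⟩ := hx
    obtain ⟨σ, hσ⟩ := hperm γ hγ
    choose γ' hγ' hmul using hσ
    set v : ℂ × ℂ := ((a : ℂ), (b : ℂ)) with hv
    have key : Cc N m γ v ∘ₗ T = ∑ i, Cc N m (γ' i) (vact (α (σ i)) v) := by
      ext f
      have htf := isTower_cusp f
      have hE : ∀ (z : ℍ) (u : ℂ × ℂ), E m (tower ⇑(T f)) z u
          = ∑ i, E m (tower ⇑f) (α i • z) (vact (α i) u) := by
        intro z u
        have h1 : IsTower (∑ i, tower (⇑f ∣[(m : ℤ) + 2] α i)) ⇑(T f) := by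
          rw [hT f]
          exact IsTower.sum _ fun i _ =>
            (isTower_slash_UT m htf (hUT i).det_pos (hUT i).h10).isTower_tower
        rw [h1.tower_eq, E_sum]
        exact Finset.sum_congr rfl fun i _ =>
          E_tower_slash_UT m htf (hUT i).det_pos (hUT i).h10 z u
      rw [LinearMap.comp_apply, Cc_apply m hγ v (T f) UpperHalfPlane.I, hE, hE,
        LinearMap.sum_apply]
      rw [← Equiv.sum_comp σ (fun i => E m (tower ⇑f) (α i • UpperHalfPlane.I) (vact (α i) v)),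
        ← Finset.sum_sub_distrib]
      refine Finset.sum_congr rfl fun i _ => ?_
      rw [Cc_apply m (hγ' i) _ f (α (σ i) • UpperHalfPlane.I)]
      rw [← mul_smul, ← vact_mul, hmul i, mul_smul, vact_mul]
    rw [key]
    refine Submodule.sum_mem _ fun i _ => ?_
    obtain ⟨a', b', hab⟩ := (hUT (σ i)).vact_int a b
    rw [hv, hab]
    exact Cc_mem_Lam m (hγ' i) a' b'

end Fermat.Agent.S22
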