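import Mathlib
import Fermat.Prelude.Def_CuspForm_HeckeAlgebra
import Fermat.Agent.S22.Hecke

set_option autoImplicit false

open UpperHalfPlane hiding I
open Complex Filter Topology Function Matrix.SpecialLinearGroup
open scoped MatrixGroups ModularForm Manifold Real
open P2MW.S_ModularForm_heckeT_slash_eq_self_of_mem_Gamma0.ModularForm.HeckeSlashInvariance

namespace Fermat.Agent.S22

variable {N : ℕ} [NeZero N]

theorem isIntUT_heckeMatrix {p : ℕ} (hp : p ≠ 0) (j : ℕ) : IsIntUT (ModularForm.heckeMatrix p j) where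
  det_pos := by
    have := ModularForm.det_heckeMatrix_pos p j
    rwa [Matrix.GeneralLinearGroup.val_det_apply] at this
  h10 := by simp [ModularForm.val_heckeMatrix hp]
  int := ⟨1, j, p, by simp [ModularForm.val_heckeMatrix hp], by simp [ModularForm.val_heckeMatrix hp],
    by simp [ModularForm.val_heckeMatrix hp]⟩

theorem isIntUT_heckeDiagMatrix {p : ℕ} (hp : p ≠ 0) : IsIntUT (ModularForm.heckeDiagMatrix p) where
  det_pos := by
    have := ModularForm.det_heckeDiagMatrix_pos p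
    rwa [Matrix.GeneralLinearGroup.val_det_apply] at this
  h10 := by simp [ModularForm.val_heckeDiagMatrix hp]
  int := ⟨p, 0, 1, by simp [ModularForm.val_heckeDiagMatrix hp],
    by simp [ModularForm.val_heckeDiagMatrix hp], by simp [ModularForm.val_heckeDiagMatrix hp]⟩

theorem mem_Gamma0_iff_dvd (g : SL(2, ℤ)) : g ∈ CongruenceSubgroup.Gamma0 N ↔ (N : ℤ) ∣ g 1 0 := by
  rw [CongruenceSubgroup.Gamma0_mem, ZMod.intCast_zmod_eq_zero_iff_dvd]

theorem Lam_stable_T (m : ℕ) {p : ℕ} (hp : p.Prime) (hpN : ¬ p ∣ N) :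
    ∀ l ∈ Lam N m, l ∘ₗ CuspForm.heckeTLin ((m : ℤ) + 2) hp hpN ∈ Lam N m := by
  haveI : Fact p.Prime := ⟨hp⟩
  haveI : NeZero p := ⟨hp.ne_zero⟩
  refine Lam_stable m _ (heckeRep p) ?_ ?_ ?_
  · intro x
    induction x using OnePoint.rec with
    | infty => exact isIntUT_heckeDiagMatrix hp.ne_zero
    | coe j => exact isIntUT_heckeMatrix hp.ne_zero _
  · intro f
    rw [CuspForm.coe_heckeTLin_apply]
    exact heckeT_eq_sum_onePoint _ _
  · intro γ hγ
    refine ⟨MulAction.toPerm (redMatrix p γ), fun x => ?_⟩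
    obtain ⟨g', hg', hmul⟩ := heckeRep_mul hpN γ ((mem_Gamma0_iff_dvd γ).mp hγ) x
    exact ⟨g', (mem_Gamma0_iff_dvd g').mpr hg', hmul⟩

theorem Lam_stable_U (m : ℕ) {q : ℕ} (hq : q.Prime) (hqN : q ∣ N) :
    ∀ l ∈ Lam N m, l ∘ₗ CuspForm.heckeULin ((m : ℤ) + 2) hqN ∈ Lam N m := by
  haveI : NeZero q := ⟨hq.ne_zero⟩
  refine Lam_stable m _ (fun x : ZMod q => ModularForm.heckeMatrix q x.val) ?_ ?_ ?_
  · intro x
    exact isIntUT_heckeMatrix hq.ne_zero _
  · intro f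
    rw [CuspForm.coe_heckeULin_apply]
    exact heckeU_eq_sum_zmod _ _
  · intro γ hγ
    have hN : (N : ℤ) ∣ γ 1 0 := (mem_Gamma0_iff_dvd γ).mp hγ
    have hc : (q : ℤ) ∣ γ 1 0 := (Int.natCast_dvd_natCast.mpr hqN).trans hN
    refine ⟨affinePerm γ ((ZMod.intCast_zmod_eq_zero_iff_dvd _ _).mpr hc), fun x => ?_⟩
    obtain ⟨g', hg', hmul⟩ := heckeMatrix_mul_of_dvd γ hc x
    exact ⟨g', (mem_Gamma0_iff_dvd g').mpr (hg' ▸ Dvd.dvd.mul_left hN _), hmul⟩

end Fermat.Agent.S22
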