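import Mathlib
import Fermat.Agent.S22.Lattice

set_option autoImplicit false

open UpperHalfPlane hiding I
open Complex Filter Topology Function Matrix.SpecialLinearGroup
open scoped MatrixGroups ModularForm Manifold Real

namespace Fermat.Agent.S22

/-- A polynomial vanishing at all integers is zero. -/
theorem poly_eq_zero_of_int {P : Polynomial ℂ} (h : ∀ a : ℤ, P.eval (a : ℂ) = 0) : P = 0 := by
  apply Polynomial.eq_zero_of_infinite_isRoot
  have : Set.range (fun a : ℤ => (a : ℂ)) ⊆ {x | P.IsRoot x} := by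
    rintro _ ⟨a, rfl⟩
    exact h a
  exact (Set.infinite_range_of_injective Int.cast_injective).mono this

/-- A polynomial which is periodic along a ray is constant. -/
theorem poly_const_of_periodic {P : Polynomial ℂ} {M : ℂ} (hM : M ≠ 0) (z₀ : ℂ)
    (h : ∀ n : ℕ, P.eval (z₀ + n * M) = P.eval z₀) : P = Polynomial.C (P.eval z₀) := by
  rw [← sub_eq_zero]
  apply Polynomial.eq_zero_of_infinite_isRoot
  have : Set.range (fun n : ℕ => z₀ + n * M) ⊆ {x | (P - Polynomial.C (P.eval z₀)).IsRoot x} := by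
    rintro _ ⟨n, rfl⟩
    simp [Polynomial.IsRoot, h n]
  refine (Set.infinite_range_of_injective ?_).mono this
  intro a b hab
  simpa [hM] using hab

/-- If a member of a tower vanishes then so do all the lower ones. -/
theorem IsPrim.eq_zero {g : ℍ → ℂ} (h : IsPrim 0 g) : g = 0 := by
  funext z
  have h1 := h z
  have h2 : HasDerivAt (fun w : ℂ => (0 : ℍ → ℂ) (ofComplex w)) 0 (z : ℂ) := by
    simpa using hasDerivAt_const (z : ℂ) (0 : ℂ)
  exact h1.unique h2

theorem IsTower.eq_zero_of_eq_zero {t : ℕ → ℍ → ℂ} {g : ℍ → ℂ} (h : IsTower t g) (n : ℕ)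
    (hn : t n = 0) : g = 0 := by
  induction n with
  | zero => rw [← h.zero, hn]
  | succ n ih =>
    apply ih
    have := h.prim n
    rw [hn] at this
    exact this.eq_zero


/-- A common period for all `SL(2,ℤ)`-translates of slash invariant forms on an arithmetic group. -/
theorem exists_period_slash (Γ : Subgroup (GL (Fin 2) ℝ)) [Γ.IsArithmetic] :
    ∃ M : ℕ, 0 < M ∧ ∀ (k : ℤ) (F : SlashInvariantForm Γ k) (σ : SL(2, ℤ)) (z : ℍ),
      (⇑F ∣[k] σ) ((M : ℝ) +ᵥ z) = (⇑F ∣[k] σ) z := by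
  obtain ⟨M, hM, h⟩ := Subgroup.IsArithmetic.exists_nat_mem_strictPeriods_conj Γ
  refine ⟨M, hM, fun k F σ z => ?_⟩
  have h1 := h σ⁻¹
  rw [map_inv] at h1
  exact SlashInvariantForm.vAdd_apply_of_mem_strictPeriods
    (SlashInvariantForm.translate F (mapGL ℝ σ)) z h1

theorem exists_isTower_slash {Γ : Subgroup (GL (Fin 2) ℝ)} [Γ.IsArithmetic] {k : ℤ}
    (f : CuspForm Γ k) (σ : SL(2, ℤ)) : ∃ t, IsTower t (⇑f ∣[k] σ) := by
  obtain ⟨M, hM, h⟩ := exists_period_slash Γ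
  refine exists_tower (h := (M : ℝ)) (by exact_mod_cast hM) ?_
    (fun z => h k f.toSlashInvariantForm σ z) (CuspFormClass.zero_at_infty_slash f σ)
  exact (CuspFormClass.holo f).slash k _

theorem exists_isTower {Γ : Subgroup (GL (Fin 2) ℝ)} [Γ.IsArithmetic] {k : ℤ}
    (f : CuspForm Γ k) : ∃ t, IsTower t ⇑f := by
  simpa using exists_isTower_slash f 1

/-- The members of a tower of a periodic function are periodic. -/
theorem IsTower.periodic {t : ℕ → ℍ → ℂ} {g : ℍ → ℂ} (h : IsTower t g) {M : ℝ}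
    (hg : ∀ z : ℍ, g (M +ᵥ z) = g z) (i : ℕ) (z : ℍ) : t i (M +ᵥ z) = t i z := by
  set α : GL (Fin 2) ℝ := Matrix.GeneralLinearGroup.upperRightHom M with hα
  have hsm : ∀ τ : ℍ, α • τ = M +ᵥ τ := by
    intro τ
    ext
    simp [hα, σ, num, denom, coe_vadd, UpperHalfPlane.coe_smul, add_comm]
  have hdet : 0 < α.val.det := by
    simp [hα, Matrix.det_fin_two]
  have h10 : α 1 0 = 0 := by simp [hα]
  have h1 := h.comp_smul hdet h10 1
  have e : (fun z : ℍ => (1 : ℂ) * g (α • z)) = g := by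
    funext τ
    rw [hsm, hg, one_mul]
  rw [e] at h1
  have h2 := congrFun (congrFun (h1.unique h) i) z
  have h00 : α 0 0 = 1 := by simp [hα]
  have h11 : α 1 1 = 1 := by simp [hα]
  simp only [hsm, h00, h11] at h2
  simpa using h2


theorem vact_diag (α : GL (Fin 2) ℝ) (hα : 0 < α.val.det) (z : ℍ) :
    vact α ((z : ℂ), 1) = (denom α z * ((α • z : ℍ) : ℂ), denom α z * 1) := by
  have hD : denom α z ≠ 0 := denom_ne_zero α z
  rw [UpperHalfPlane.coe_smul_of_det_pos (by simpa using hα), mul_div_cancel₀ _ hD]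
  simp [vact, num, denom]

open Polynomial in
/-- The basic transformation formula of the `(m+1)`-fold primitive under `SL(2,ℤ)`. -/
theorem key_identity (m : ℕ) {t t' : ℕ → ℍ → ℂ} (ht : ∀ i, IsPrim (t (i + 1)) (t i))
    (ht' : ∀ i, IsPrim (t' (i + 1)) (t' i)) (σ : SL(2, ℤ))
    (hslash : t' 0 = t 0 ∣[(m : ℤ) + 2] σ) (z₀ : ℍ) :
    ∃ Q : Polynomial ℂ,
      (∀ x : ℂ, Q.eval x = E m t (mapGL ℝ σ • z₀) (vact (mapGL ℝ σ) (x, 1)) - E m t' z₀ (x, 1)) ∧
      ∀ z : ℍ, (m.factorial : ℂ) * (t (m + 1) ∣[-(m : ℤ)] σ) z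
        = (m.factorial : ℂ) * t' (m + 1) z + Q.eval (z : ℂ) := by
  set α : GL (Fin 2) ℝ := mapGL ℝ σ with hα
  have hdet : 0 < α.val.det := det_mapGL_pos σ
  refine ⟨EP m t (α • z₀) (C (α 0 0 : ℂ) * X + C (α 0 1 : ℂ)) (C (α 1 0 : ℂ) * X + C (α 1 1 : ℂ))
    - EP m t' z₀ X 1, fun x => ?_, fun z => ?_⟩
  · simp [EP_eval, vact]
  · have h1 := E_equivariant m ht ht' hdet hslash ((z : ℂ), 1) z z₀
    rw [Polynomial.eval_sub, EP_eval, EP_eval]
    simp only [eval_add, eval_mul, eval_C, eval_X, eval_one]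
    have h2 : ((α 0 0 : ℂ) * z + (α 0 1 : ℂ), (α 1 0 : ℂ) * z + (α 1 1 : ℂ)) = vact α ((z : ℂ), 1) := by
      simp [vact]
    rw [h2, ← h1, vact_diag α hdet z, E_smul_vec m t (α • z) (denom α z) (((α • z : ℍ) : ℂ), 1),
      E_diag, E_diag, ModularForm.SL_slash_apply]
    have h3 : (σ • z : ℍ) = α • z := rfl
    have h4 : denom σ z = denom α z := rfl
    rw [h3, h4, neg_neg, zpow_natCast]
    ring


theorem modularForm_eq_zero_of_nonpos {Γ : Subgroup (GL (Fin 2) ℝ)} [Γ.IsArithmetic] {k : ℤ}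
    (hk : k ≤ 0) (F : ModularForm Γ k) (h0 : IsZeroAtImInfty F) : (F : ℍ → ℂ) = 0 := by
  rcases hk.lt_or_eq with hk | rfl
  · rw [ModularForm.isZero_of_neg_weight hk F]
    rfl
  · obtain ⟨c, hc⟩ := ModularForm.eq_const_of_weight_zero F
    have h1 : Tendsto (F : ℍ → ℂ) atImInfty (𝓝 c) := by
      rw [hc]
      exact tendsto_const_nhds
    have : c = 0 := tendsto_nhds_unique h1 h0
    rw [hc, this]
    rfl

/-- **Separation**: a cusp form all of whose period functionals vanish is zero. -/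
theorem sep' {Γ : Subgroup SL(2, ℤ)} [Γ.FiniteIndex] (m : ℕ)
    (f : CuspForm (Γ : Subgroup (GL (Fin 2) ℝ)) ((m : ℤ) + 2)) {t : ℕ → ℍ → ℂ} (ht : IsTower t ⇑f)
    (h : ∀ γ ∈ Γ, ∀ a : ℤ,
      E m t (mapGL ℝ γ • UpperHalfPlane.I) (vact (mapGL ℝ γ) ((a : ℂ), 1))
        = E m t UpperHalfPlane.I ((a : ℂ), 1)) : f = 0 := by
  have hfac : (m.factorial : ℂ) ≠ 0 := by exact_mod_cast m.factorial_ne_zero
  -- Step 1: invariance
  have hinv : ∀ γ ∈ Γ, t (m + 1) ∣[-(m : ℤ)] γ = t (m + 1) := by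
    intro γ hγ
    have hslash : t 0 = t 0 ∣[(m : ℤ) + 2] γ := by
      rw [ht.zero]
      exact (SlashInvariantFormClass.slash_action_eq f (mapGL ℝ γ)
        (Subgroup.mem_map_of_mem _ hγ)).symm
    obtain ⟨Q, hQ1, hQ2⟩ := key_identity m ht.prim ht.prim γ hslash UpperHalfPlane.I
    have hQ : Q = 0 := poly_eq_zero_of_int fun a => by rw [hQ1, h γ hγ a, sub_self]
    funext z
    have := hQ2 z
    rw [hQ, Polynomial.eval_zero, add_zero] at this
    exact mul_left_cancel₀ hfac this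
  -- Step 2: slash invariant form
  let H : SlashInvariantForm (Γ : Subgroup (GL (Fin 2) ℝ)) (-(m : ℤ)) :=
    { toFun := t (m + 1)
      slash_action_eq' := by
        rintro _ ⟨γ, hγ, rfl⟩
        exact hinv γ hγ }
  obtain ⟨M, hM, hper⟩ := exists_period_slash (Γ : Subgroup (GL (Fin 2) ℝ))
  -- Step 3: boundedness at the cusps
  have hbdd : ∀ σ : SL(2, ℤ), IsBoundedAtImInfty (t (m + 1) ∣[-(m : ℤ)] σ) := by
    intro σ
    obtain ⟨t', ht'⟩ := exists_isTower_slash f σ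
    have hslash : t' 0 = t 0 ∣[(m : ℤ) + 2] σ := by rw [ht.zero, ht'.zero]
    obtain ⟨Q, -, hQ2⟩ := key_identity m ht.prim ht'.prim σ hslash UpperHalfPlane.I
    have hQper : ∀ z : ℍ, Q.eval (((M : ℝ) +ᵥ z : ℍ) : ℂ) = Q.eval (z : ℂ) := by
      intro z
      have h1 := hQ2 z
      have h2 := hQ2 ((M : ℝ) +ᵥ z)
      have h3 : (t (m + 1) ∣[-(m : ℤ)] σ) ((M : ℝ) +ᵥ z) = (t (m + 1) ∣[-(m : ℤ)] σ) z :=
        hper _ H σ z
      have h4 : t' (m + 1) ((M : ℝ) +ᵥ z) = t' (m + 1) z :=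
        ht'.periodic (fun z => hper _ f.toSlashInvariantForm σ z) (m + 1) z
      rw [h3, h4, h1] at h2
      exact (add_left_cancel h2).symm
    have hQn : ∀ n : ℕ, Q.eval ((UpperHalfPlane.I : ℂ) + n * (M : ℂ)) = Q.eval (UpperHalfPlane.I : ℂ) := by
      intro n
      induction n with
      | zero => simp
      | succ n ih =>
        have hpos : 0 < ((UpperHalfPlane.I : ℂ) + n * (M : ℂ)).im := by simp
        have := hQper ⟨_, hpos⟩
        rw [← ih, ← this]
        congr 1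
        simp [coe_vadd]
        ring
    have hQc := poly_const_of_periodic (M := (M : ℂ)) (by exact_mod_cast hM.ne') _ hQn
    have hform : t (m + 1) ∣[-(m : ℤ)] σ
        = t' (m + 1) + fun _ => (m.factorial : ℂ)⁻¹ * Q.eval (UpperHalfPlane.I : ℂ) := by
      funext z
      have := hQ2 z
      rw [hQc, Polynomial.eval_C] at this
      rw [Pi.add_apply]
      field_simp
      linear_combination this
    rw [hform]
    exact (ht'.van m).isBoundedAtImInfty.add (const_boundedAtFilter _ _)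
  -- Step 4: the modular form
  let F : ModularForm (Γ : Subgroup (GL (Fin 2) ℝ)) (-(m : ℤ)) :=
    { H with
      holo' := (ht.prim m).mdiff
      bdd_at_cusps' := by
        intro c hc
        rw [Subgroup.IsArithmetic.isCusp_iff_isCusp_SL2Z] at hc
        rw [OnePoint.isBoundedAt_iff_forall_SL2Z hc]
        exact fun σ _ => hbdd σ }
  have hF : (F : ℍ → ℂ) = 0 := modularForm_eq_zero_of_nonpos (by simp) F (ht.van m)
  have hf : (f : ℍ → ℂ) = 0 := ht.eq_zero_of_eq_zero (m + 1) hF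
  exact DFunLike.coe_injective hf


theorem sep (N : ℕ) [NeZero N] (m : ℕ)
    (f : CuspForm (CongruenceSubgroup.Gamma0 N : Subgroup (GL (Fin 2) ℝ)) ((m : ℤ) + 2))
    {t : ℕ → ℍ → ℂ} (ht : IsTower t ⇑f)
    (h : ∀ γ ∈ CongruenceSubgroup.Gamma0 N, ∀ a b : ℤ,
      E m t (mapGL ℝ γ • UpperHalfPlane.I) (vact (mapGL ℝ γ) ((a : ℂ), (b : ℂ)))
        = E m t UpperHalfPlane.I ((a : ℂ), (b : ℂ))) : f = 0 :=
  sep' m f ht fun γ hγ a => by simpa using h γ hγ a 1

/-- The lattice of period functionals separates points. -/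
theorem Lam_sep {N : ℕ} [NeZero N] (m : ℕ)
    (f : CuspForm (CongruenceSubgroup.Gamma0 N) ((m : ℤ) + 2)) (h : ∀ l ∈ Lam N m, l f = 0) :
    f = 0 :=
  sep N m f (isTower_cusp f) fun γ hγ a b => by
    have := h _ (Cc_mem_Lam m hγ a b)
    rw [Cc_apply m hγ _ f UpperHalfPlane.I, sub_eq_zero] at this
    exact this

end Fermat.Agent.S22
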