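import Fermat.Agent.S22.Trivial

set_option autoImplicit false

namespace Fermat.Agent.S22

theorem subsingleton_cuspForm_of_le_one (N : ℕ) [NeZero N] (k : ℤ) (hk : k ≤ 1) :
    Subsingleton (CuspForm (CongruenceSubgroup.Gamma0 N) k) := by
  have h : ∀ f : CuspForm (CongruenceSubgroup.Gamma0 N) k, f = 0 := by
    intro f
    rcases hk.lt_or_eq with h | h
    · exact cuspForm_eq_zero_of_nonpos N (by omega) f
    · exact cuspForm_eq_zero_of_odd N (by rw [h]; exact odd_one) f
  exact ⟨fun a b => (h a).trans (h b).symm⟩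

theorem finite_heckeAlgebra_of_le_one (N : ℕ) [NeZero N] (k : ℤ) (hk : k ≤ 1) (S : Set ℕ) :
    Module.Finite ℤ (CuspForm.heckeAlgebra N k S) :=
  have := subsingleton_cuspForm_of_le_one N k hk
  finite_heckeAlgebra_of_forall_eq_zero N k S fun _ => Subsingleton.elim _ _

end Fermat.Agent.S22
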